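import Fermat.Agent.MR.KA.ParRank
import Fermat.Agent.GAL.AN.Package
import Fermat.Agent.GAL.Genus.Main
import Fermat.Agent.S21
import Fermat.Agent.S27.H.Main
import Fermat.Agent.S27.B.Lefschetz
import Fermat.Agent.S19.W.EvD

/-!
# MR / KA / Count : every everywhere unramified Kummer element of level `M` is analytic (by counting)

`n^ρ ≤ #Hom_par(Γ₀(M), ℤ/n) = #(Van/FLˣ) ≤ #(Kum/FLˣ) ≤ #Pic⁰[n] = n^(2 genusFF) ≤ n^(2 dim S₂) = n^(dim_ℂ Hom_par(Γ₀(M), ℂ)) ≤ n^ρ`.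
-/

set_option autoImplicit false
set_option linter.unusedSectionVars false

open ModularCurve AlgebraicCurve CongruenceSubgroup
open Fermat.Agent.S24 Fermat.Agent.S24.FF Fermat.Agent.S27 Fermat.Agent.GAL Fermat.Agent.GAL.FF
open scoped MatrixGroups

noncomputable section

namespace Fermat.Agent.MR.KA

/-- `SL₂(ℤ)` is finitely generated. -/
theorem fg_SL2Z : Group.FG SL(2, ℤ) := by
  rw [Group.fg_iff]
  exact ⟨{ModularGroup.S, ModularGroup.T}, SpecialLinearGroup.SL2Z_generators, by simp⟩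

theorem fg_Gamma0 (M : ℕ) [NeZero M] : Group.FG (Gamma0 M) := by
  have := fg_SL2Z
  exact Subgroup.fg_of_index_ne_zero (Gamma0 M)

/-- the parabolic elements. -/
def parSet (M : ℕ) : Set (Gamma0 M) :=
  {γ | ((γ : SL(2, ℤ)) : Matrix (Fin 2) (Fin 2) ℤ).trace ^ 2 = 4}

/-- the rank `ρ` of `Γ₀(M)^ab/⟨parabolics⟩` is at least `2 dim S₂`, and `Hom_par(Γ₀(M), ℤ/n)` contains `(ℤ/n)^ρ`. -/
theorem exists_rank_Gamma0 (M : ℕ) [NeZero M] :
    ∃ (ρ : ℕ) (γ : Fin ρ → Gamma0 M), 2 * Module.finrank ℂ (CuspForm (Gamma0 M) 2) ≤ ρ ∧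
      ∀ (n : ℕ) (c : Fin ρ → ZMod n), ∃ φ : HPar M n, ∀ i, φ.1 (Additive.ofMul (γ i)) = c i := by
  have := fg_Gamma0 M
  obtain ⟨ρ, γ, h1, h2⟩ := exists_rank (Gamma0 M) (parSet M)
  refine ⟨ρ, γ, ?_, ?_⟩
  · obtain ⟨hinj, hrange⟩ := Fermat.Agent.S21.result M
    let ev : (Additive (Gamma0 M) →+ ℂ) →ₗ[ℂ] (Fin ρ → ℂ) :=
      { toFun := fun φ i => φ (Additive.ofMul (γ i))
        map_add' := fun _ _ => rfl
        map_smul' := fun _ _ => rfl }
    let Φ : (CuspForm (Gamma0 M) 2 × CuspForm (Gamma0 M) 2) →ₗ[ℂ] (Fin ρ → ℂ) :=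
      ev.comp (periodHomPair M)
    have hΦ : Function.Injective Φ := by
      rw [← LinearMap.ker_eq_bot, LinearMap.ker_eq_bot']
      intro x hx
      have hpar : periodHomPair M x ∈ Period.parabolicHoms ℂ (Gamma0 M) ℂ := by
        rw [← hrange]
        exact ⟨x, rfl⟩
      have h0 : periodHomPair M x = 0 :=
        h1 _ (fun s hs => hpar s hs) (fun i => congrFun hx i)
      exact hinj (h0.trans (map_zero _).symm)
    have hfd : Module.Finite ℂ (CuspForm (Gamma0 M) 2 × CuspForm (Gamma0 M) 2) :=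
      Module.Finite.of_injective Φ hΦ
    have hfd1 : Module.Finite ℂ (CuspForm (Gamma0 M) 2) :=
      Module.Finite.of_surjective
        (LinearMap.fst ℂ (CuspForm (Gamma0 M) 2) (CuspForm (Gamma0 M) 2)) LinearMap.fst_surjective
    have h3 := LinearMap.finrank_le_finrank_of_injective hΦ
    rw [Module.finrank_prod, Module.finrank_fin_fun] at h3
    omega
  · intro n c
    obtain ⟨φ, hφ, hc⟩ := h2 n c
    exact ⟨⟨φ, fun s hs => hφ s hs⟩, hc⟩

/-! ### the Kummer class -/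

variable {M n : ℕ} [NeZero M] [NeZero n]

/-- `(1/n) div f`. -/
theorem exists_div_nth (f : FL Qb M) (h : ∀ P : Place Qb (FL Qb M), (n : ℤ) ∣ P.ord f) :
    ∃ D : Divisor Qb (FL Qb M), Divisor.degree D = 0 ∧ ∀ P, (n : ℤ) * D P = P.ord f := by
  have hn : (n : ℤ) ≠ 0 := by exact_mod_cast NeZero.ne n
  refine ⟨(divOf Qb f).mapRange (fun a => a / (n : ℤ)) (by simp), ?_, ?_⟩
  · have h1 : (n : ℤ) • (divOf Qb f).mapRange (fun a => a / (n : ℤ)) (by simp) = divOf Qb f := by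
      ext P
      rw [Finsupp.smul_apply, Finsupp.mapRange_apply, divOf_apply, smul_eq_mul,
        Int.mul_ediv_cancel' (h P)]
    have h2 := congrArg Divisor.degree h1
    rw [map_zsmul, degree_divOf, smul_eq_mul] at h2
    exact (mul_eq_zero.1 h2).resolve_left hn
  · intro P
    rw [Finsupp.mapRange_apply, divOf_apply, Int.mul_ediv_cancel' (h P)]

/-- the Kummer divisor of `u`. -/
def kumDiv (u : LaurentSeries Qb) (hu : IsKum Qb M n u) : Divisor Qb (FL Qb M) :=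
  (exists_div_nth (n := n) ⟨u ^ n, hu.2.choose⟩ hu.2.choose_spec).choose

theorem degree_kumDiv (u : LaurentSeries Qb) (hu : IsKum Qb M n u) :
    Divisor.degree (kumDiv u hu) = 0 :=
  (exists_div_nth (n := n) ⟨u ^ n, hu.2.choose⟩ hu.2.choose_spec).choose_spec.1

theorem kumDiv_apply (u : LaurentSeries Qb) (hu : IsKum Qb M n u) (hf : u ^ n ∈ FL Qb M)
    (P : Place Qb (FL Qb M)) : (n : ℤ) * kumDiv u hu P = P.ord ⟨u ^ n, hf⟩ :=
  (exists_div_nth (n := n) ⟨u ^ n, hu.2.choose⟩ hu.2.choose_spec).choose_spec.2 P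

/-- the Kummer class in `Pic⁰[n]`. -/
def kumCls (u : LaurentSeries Qb) (hu : IsKum Qb M n u) : Pic0.torsion Qb (FL Qb M) n :=
  ⟨cls (kumDiv u hu), by
    rw [Pic0.mem_torsion, ← cls_zsmul (degree_kumDiv u hu),
      cls_eq_zero_iff (by rw [map_zsmul, degree_kumDiv, smul_zero])]
    refine ⟨⟨u ^ n, hu.2.choose⟩, ?_, fun P => ?_⟩
    · intro h
      exact pow_ne_zero n hu.1 (congrArg Subtype.val h)
    · rw [Finsupp.smul_apply, smul_eq_mul, kumDiv_apply]⟩

/-- an element of `ℚ̄((q))` algebraic over `ℚ̄` is a constant. -/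
theorem mem_FL_of_pow_eq_one {z : LaurentSeries Qb} (hz : z ^ n = 1) : z ∈ FL Qb M := by
  have hint : IsIntegral Qb z :=
    ⟨Polynomial.X ^ n - 1, Polynomial.monic_X_pow_sub_C 1 (NeZero.ne n), by simp [hz]⟩
  have h1 := IsAlgClosed.degree_eq_one_of_irreducible Qb (minpoly.irreducible hint)
  obtain ⟨c, hc⟩ := minpoly.mem_range_of_degree_eq_one Qb z h1
  rw [← hc]
  exact (FL Qb M).algebraMap_mem c

/-- the Kummer class is injective modulo `FL`. -/
theorem div_mem_FL_of_kumCls_eq {u v : LaurentSeries Qb} (hu : IsKum Qb M n u)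
    (hv : IsKum Qb M n v) (h : kumCls u hu = kumCls v hv) : u / v ∈ FL Qb M := by
  have hn : (n : ℤ) ≠ 0 := by exact_mod_cast NeZero.ne n
  have h1 : cls (kumDiv u hu) = cls (kumDiv v hv) := congrArg Subtype.val h
  rw [cls_eq_iff (degree_kumDiv u hu) (degree_kumDiv v hv)] at h1
  obtain ⟨g, hg0, hg⟩ := h1
  obtain ⟨hfu, -⟩ := hu.2
  obtain ⟨hfv, -⟩ := hv.2
  have hfu0 : (⟨u ^ n, hfu⟩ : FL Qb M) ≠ 0 := fun h => pow_ne_zero n hu.1 (congrArg Subtype.val h)
  have hfv0 : (⟨v ^ n, hfv⟩ : FL Qb M) ≠ 0 := fun h => pow_ne_zero n hv.1 (congrArg Subtype.val h)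
  have h2 : ∀ P : Place Qb (FL Qb M),
      P.ord ((⟨v ^ n, hfv⟩ : FL Qb M) * g ^ n) = P.ord (⟨u ^ n, hfu⟩ : FL Qb M) := by
    intro P
    have e1 := hg P
    rw [P.ord_mul hfv0 (pow_ne_zero n hg0), ← kumDiv_apply u hu hfu, ← kumDiv_apply v hv hfv,
      ← zpow_natCast, P.ord_zpow, ← e1]
    ring
  obtain ⟨c, hc0, hc⟩ := Fermat.Agent.S19.W.exists_const_mul
    (mul_ne_zero hfv0 (pow_ne_zero n hg0)) hfu0 h2
  obtain ⟨c', hc'⟩ := IsAlgClosed.exists_pow_nat_eq c (Nat.pos_of_ne_zero (NeZero.ne n))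
  have hc'0 : c' ≠ 0 := by
    rintro rfl
    rw [zero_pow (NeZero.ne n)] at hc'
    exact hc0 hc'.symm
  have hc2 : u ^ n = algebraMap Qb (LaurentSeries Qb) c * (v ^ n * (g : LaurentSeries Qb) ^ n) :=
    congrArg Subtype.val hc
  set w : LaurentSeries Qb := algebraMap Qb (LaurentSeries Qb) c' * (g : LaurentSeries Qb) with hw
  have hw0 : w ≠ 0 := by
    refine mul_ne_zero ?_ (fun h => hg0 (Subtype.ext h))
    rwa [Ne, map_eq_zero]
  have hwm : w ∈ FL Qb M := (FL Qb M).mul_mem ((FL Qb M).algebraMap_mem c') g.2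
  have h3 : (u / (v * w)) ^ n = 1 := by
    rw [div_pow, mul_pow, hw, mul_pow, ← map_pow, hc', hc2]
    have : v ^ n * (algebraMap Qb (LaurentSeries Qb) c * (g : LaurentSeries Qb) ^ n) ≠ 0 := by
      refine mul_ne_zero (pow_ne_zero n hv.1) (mul_ne_zero ?_ (pow_ne_zero n fun h => hg0 (Subtype.ext h)))
      rwa [Ne, map_eq_zero]
    rw [div_eq_one_iff_eq this]
    ring
  have h4 : u / v = u / (v * w) * w := by
    field_simp
  rw [h4]
  exact (FL Qb M).mul_mem (mem_FL_of_pow_eq_one h3) hwm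

theorem card_torsion_FL (M n : ℕ) [NeZero M] [NeZero n] :
    Nat.card (Pic0.torsion Qb (FL Qb M) n) = n ^ (2 * genusFF Qb (FL Qb M)) :=
  Fermat.Agent.S27.card_torsion_of_complex
    (fun Fc _ _ _ n hn => Fermat.Agent.S27.card_torsion_complex Fc n hn) Qb _ n
    (Nat.pos_of_ne_zero (NeZero.ne n))

/-- **every everywhere unramified Kummer element of exponent `n` and level `M` is analytic modulo `FL`.** -/
theorem isKum_analytic (𝒜 : AnPackage M n) (u : LaurentSeries Qb) (hu : IsKum Qb M n u) :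
    ∃ v ∈ 𝒜.Van, u / ((v : (LaurentSeries Qb)ˣ) : LaurentSeries Qb) ∈ FL Qb M := by
  obtain ⟨ρ, γ, hρ, hφ⟩ := exists_rank_Gamma0 M
  choose φ hφ using hφ n
  choose w hw using fun c => 𝒜.chr_surjective (Multiplicative.ofAdd (φ c))
  let Ψ : (Fin ρ → ZMod n) → Pic0.torsion Qb (FL Qb M) n :=
    fun c => kumCls ((w c : (LaurentSeries Qb)ˣ) : LaurentSeries Qb) (𝒜.isKum _ (w c).2)
  have hΨ : Function.Injective Ψ := by
    intro c c' h
    have h1 := div_mem_FL_of_kumCls_eq _ _ h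
    have h2 : 𝒜.chr (w c / w c') = 1 := by
      rw [𝒜.chr_eq_one_iff]
      simpa using h1
    rw [map_div, hw, hw] at h2
    have h3 : φ c = φ c' := Multiplicative.ofAdd.injective (div_eq_one.1 h2)
    funext i
    rw [← hφ c i, ← hφ c' i, h3]
  have hn : 0 < n := Nat.pos_of_ne_zero (NeZero.ne n)
  have hcard := card_torsion_FL M n
  have hfin : Finite (Pic0.torsion Qb (FL Qb M) n) :=
    Nat.finite_of_card_ne_zero (by rw [hcard]; exact (pow_pos hn _).ne')
  have hg : genusFF Qb (FL Qb M) ≤ Module.finrank ℂ (CuspForm (Gamma0 M) 2) :=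
    Fermat.Agent.GAL.Genus.genusFF_FN_le M
  have hle : Nat.card (Pic0.torsion Qb (FL Qb M) n) ≤ Nat.card (Fin ρ → ZMod n) := by
    rw [hcard, Nat.card_fun, Nat.card_zmod, Nat.card_fin]
    exact Nat.pow_le_pow_right hn (by omega)
  obtain ⟨c, hc⟩ := (hΨ.bijective_of_nat_card_le hle).2 (kumCls u hu)
  exact ⟨w c, (w c).2, div_mem_FL_of_kumCls_eq _ _ hc.symm⟩

/-- by-product: `#Hom_par(Γ₀(M), ℤ/n) = n^(2 dim S₂(Γ₀(M)))`. -/
theorem card_HPar (𝒜 : AnPackage M n) :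
    Nat.card (HPar M n) = n ^ (2 * Module.finrank ℂ (CuspForm (Gamma0 M) 2)) := by
  obtain ⟨ρ, γ, hρ, hφ⟩ := exists_rank_Gamma0 M
  choose φ hφ using hφ n
  choose w hw using fun P : HPar M n => 𝒜.chr_surjective (Multiplicative.ofAdd P)
  let Ψ : HPar M n → Pic0.torsion Qb (FL Qb M) n :=
    fun c => kumCls ((w c : (LaurentSeries Qb)ˣ) : LaurentSeries Qb) (𝒜.isKum _ (w c).2)
  have hΨ : Function.Injective Ψ := by
    intro c c' h
    have h1 := div_mem_FL_of_kumCls_eq _ _ h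
    have h2 : 𝒜.chr (w c / w c') = 1 := by
      rw [𝒜.chr_eq_one_iff]
      simpa using h1
    rw [map_div, hw, hw] at h2
    exact Multiplicative.ofAdd.injective (div_eq_one.1 h2)
  have hφi : Function.Injective φ := by
    intro c c' h
    funext i
    rw [← hφ c i, ← hφ c' i, h]
  have hn : 0 < n := Nat.pos_of_ne_zero (NeZero.ne n)
  have hcard := card_torsion_FL M n
  have hfin : Finite (Pic0.torsion Qb (FL Qb M) n) :=
    Nat.finite_of_card_ne_zero (by rw [hcard]; exact (pow_pos hn _).ne')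
  have hfin2 : Finite (HPar M n) := Finite.of_injective Ψ hΨ
  have hg : genusFF Qb (FL Qb M) ≤ Module.finrank ℂ (CuspForm (Gamma0 M) 2) :=
    Fermat.Agent.GAL.Genus.genusFF_FN_le M
  have h1 : Nat.card (HPar M n) ≤ n ^ (2 * genusFF Qb (FL Qb M)) := by
    rw [← hcard]
    exact Nat.card_le_card_of_injective Ψ hΨ
  have h2 : n ^ ρ ≤ Nat.card (HPar M n) := by
    have := Nat.card_le_card_of_injective φ hφi
    rwa [Nat.card_fun, Nat.card_zmod, Nat.card_fin] at this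
  have h3 : n ^ (2 * genusFF Qb (FL Qb M))
      ≤ n ^ (2 * Module.finrank ℂ (CuspForm (Gamma0 M) 2)) := Nat.pow_le_pow_right hn (by omega)
  have h4 : n ^ (2 * Module.finrank ℂ (CuspForm (Gamma0 M) 2)) ≤ n ^ ρ :=
    Nat.pow_le_pow_right hn hρ
  omega

/-- by-product: the adelic genus of `X₀(M)` is `dim S₂(Γ₀(M))` (as soon as an `AnPackage` with `n ≥ 2` exists). -/
theorem genusFF_FL_eq (𝒜 : AnPackage M n) (hn2 : 2 ≤ n) :
    genusFF Qb (FL Qb M) = Module.finrank ℂ (CuspForm (Gamma0 M) 2) := by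
  refine le_antisymm (Fermat.Agent.GAL.Genus.genusFF_FN_le M) ?_
  choose w hw using fun P : HPar M n => 𝒜.chr_surjective (Multiplicative.ofAdd P)
  let Ψ : HPar M n → Pic0.torsion Qb (FL Qb M) n :=
    fun c => kumCls ((w c : (LaurentSeries Qb)ˣ) : LaurentSeries Qb) (𝒜.isKum _ (w c).2)
  have hΨ : Function.Injective Ψ := by
    intro c c' h
    have h1 := div_mem_FL_of_kumCls_eq _ _ h
    have h2 : 𝒜.chr (w c / w c') = 1 := by
      rw [𝒜.chr_eq_one_iff]
      simpa using h1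
    rw [map_div, hw, hw] at h2
    exact Multiplicative.ofAdd.injective (div_eq_one.1 h2)
  have hn : 0 < n := Nat.pos_of_ne_zero (NeZero.ne n)
  have hcard := card_torsion_FL M n
  have hfin : Finite (Pic0.torsion Qb (FL Qb M) n) :=
    Nat.finite_of_card_ne_zero (by rw [hcard]; exact (pow_pos hn _).ne')
  have h1 := Nat.card_le_card_of_injective Ψ hΨ
  rw [hcard, card_HPar 𝒜] at h1
  have h2 := (Nat.pow_le_pow_iff_right (by omega : 1 < n)).1 h1
  omega

end Fermat.Agent.MR.KA
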