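import Fermat.Agent.MR.KA.Count
import Fermat.Agent.GAL.AN.Main

/-!
# MR / KA / Main : `isKum_analytic` for the concrete group `AN.Van M n` at an admissible level
-/

set_option autoImplicit false

open ModularCurve AlgebraicCurve CongruenceSubgroup
open Fermat.Agent.GAL

namespace Fermat.Agent.MR.KA

variable {M n : ℕ} [NeZero M] [NeZero n]

/-- every everywhere unramified Kummer element of exponent `n` at an admissible level `M` is, modulo `FL ℚ̄ M`, analytic. -/
theorem isKum_analytic_Van (hM : AdmLevel M) (u : LaurentSeries Qb) (hu : IsKum Qb M n u) :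
    ∃ v ∈ AN.Van M n, u / ((v : (LaurentSeries Qb)ˣ) : LaurentSeries Qb) ∈ FL Qb M :=
  isKum_analytic (AN.anPackage M n hM) u hu

/-- the same with the character: `u = v * g`, `g ∈ FL`. -/
theorem exists_Van_mul (hM : AdmLevel M) (u : LaurentSeries Qb) (hu : IsKum Qb M n u) :
    ∃ (v : AN.Van M n) (g : LaurentSeries Qb), g ∈ FL Qb M ∧ g ≠ 0 ∧
      u = ((v : (LaurentSeries Qb)ˣ) : LaurentSeries Qb) * g := by
  obtain ⟨v, hv, hg⟩ := isKum_analytic_Van hM u hu
  refine ⟨⟨v, hv⟩, _, hg, div_ne_zero hu.1 v.ne_zero, ?_⟩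
  rw [mul_div_cancel₀ _ v.ne_zero]

theorem card_HPar_adm (hM : AdmLevel M) :
    Nat.card (HPar M n) = n ^ (2 * Module.finrank ℂ (CuspForm (Gamma0 M) 2)) :=
  card_HPar (AN.anPackage M n hM)

theorem genusFF_FL_eq_adm (hM : AdmLevel M) :
    genusFF Qb (FL Qb M) = Module.finrank ℂ (CuspForm (Gamma0 M) 2) :=
  genusFF_FL_eq (AN.anPackage M 2 hM) le_rfl

end Fermat.Agent.MR.KA
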