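import Mathlib

/-!
# MR / KA / ParRank : homomorphisms of a finitely generated group killing a subset

`G` finitely generated, `S ⊆ G`.  `Q := G^ab / ⟨S⟩ ≃ ℤ^ρ × torsion`.  Hence the space of homomorphisms `G → ℂ` killing `S`
has dimension `≤ ρ`, and there are at least `n^ρ` homomorphisms `G → ℤ/n` killing `S`.
-/

set_option autoImplicit false

open scoped DirectSum

namespace Fermat.Agent.MR.KA

variable (G : Type*) [Group G] (S : Set G)

/-- `⟨S⟩` in `G^ab`. -/
def relSub : AddSubgroup (Additive (Abelianization G)) :=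
  AddSubgroup.closure ((fun s : G => Additive.ofMul (Abelianization.of s)) '' S)

/-- `Q = G^ab/⟨S⟩`. -/
abbrev QQ : Type _ := Additive (Abelianization G) ⧸ relSub G S

/-- `G → Q`. -/
def toQQ : Additive G →+ QQ G S :=
  (QuotientAddGroup.mk' (relSub G S)).comp (MonoidHom.toAdditive (Abelianization.of (G := G)))

theorem toQQ_surjective : Function.Surjective (toQQ G S) := by
  intro x
  obtain ⟨y, rfl⟩ := QuotientAddGroup.mk'_surjective (relSub G S) x
  obtain ⟨g, hg⟩ := QuotientGroup.mk_surjective (s := commutator G) (Additive.toMul y)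
  exact ⟨Additive.ofMul g, by
    show QuotientAddGroup.mk' (relSub G S) (Additive.ofMul (Abelianization.of g)) = _
    congr 1⟩

theorem toQQ_of_mem {s : G} (hs : s ∈ S) : toQQ G S (Additive.ofMul s) = 0 := by
  show QuotientAddGroup.mk' (relSub G S) (Additive.ofMul (Abelianization.of s)) = 0
  rw [QuotientAddGroup.mk'_apply, QuotientAddGroup.eq_zero_iff]
  exact AddSubgroup.subset_closure ⟨s, hs, rfl⟩

variable {G S}

/-- a homomorphism killing `S` factors through `Q`. -/
theorem exists_factor {A : Type*} [AddCommGroup A] (φ : Additive G →+ A)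
    (hφ : ∀ s ∈ S, φ (Additive.ofMul s) = 0) : ∃ ψ : QQ G S →+ A, ∀ g, φ g = ψ (toQQ G S g) := by
  let φm : G →* Multiplicative A := AddMonoidHom.toMultiplicativeRight φ
  let φa : Additive (Abelianization G) →+ A := MonoidHom.toAdditiveLeft (Abelianization.lift φm)
  have h1 : ∀ g : G, φa (Additive.ofMul (Abelianization.of g)) = φ (Additive.ofMul g) := by
    intro g
    show Multiplicative.toAdd (Abelianization.lift φm (Abelianization.of g)) = _
    rw [Abelianization.lift_apply_of]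
    rfl
  have h2 : ∀ x ∈ relSub G S, φa x = 0 := by
    intro x hx
    have : relSub G S ≤ φa.ker := by
      rw [relSub, AddSubgroup.closure_le]
      rintro _ ⟨s, hs, rfl⟩
      show φa _ = 0
      rw [h1, hφ s hs]
    exact this hx
  refine ⟨QuotientAddGroup.lift (relSub G S) φa h2, fun g => ?_⟩
  show φ g = φa (Additive.ofMul (Abelianization.of (Additive.toMul g)))
  rw [h1]
  rfl

/-- a homomorphism `ℤ^ρ × torsion → ℂ` vanishing on the standard basis is zero. -/
theorem hom_eq_zero_of_basis {ρ : ℕ} {ι : Type} [Fintype ι] (p : ι → ℕ) (hp : ∀ i, (p i).Prime)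
    (e : ι → ℕ) (ψ : (Fin ρ →₀ ℤ) × (⨁ i : ι, ZMod (p i ^ e i)) →+ ℂ)
    (h : ∀ i, ψ (Finsupp.single i 1, 0) = 0) : ψ = 0 := by
  classical
  have h1 : ψ.comp (AddMonoidHom.inl _ _) = 0 := by
    apply Finsupp.addHom_ext
    intro i n
    have : (Finsupp.single i n : Fin ρ →₀ ℤ) = n • Finsupp.single i 1 := by
      rw [Finsupp.smul_single, smul_eq_mul, mul_one]
    show ψ (Finsupp.single i n, 0) = 0
    have e2 : ((Finsupp.single i n : Fin ρ →₀ ℤ), (0 : ⨁ i : ι, ZMod (p i ^ e i)))
        = n • ((Finsupp.single i 1 : Fin ρ →₀ ℤ), (0 : ⨁ i : ι, ZMod (p i ^ e i))) := by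
      rw [Prod.smul_mk, smul_zero, ← this]
    rw [e2, map_zsmul, h i, smul_zero]
  have h2 : ψ.comp (AddMonoidHom.inr _ _) = 0 := by
    apply DirectSum.addHom_ext
    intro i y
    set ψ' := ψ.comp (AddMonoidHom.inr (Fin ρ →₀ ℤ) (⨁ i : ι, ZMod (p i ^ e i))) with hψ'
    have h3 : (p i ^ e i) • ψ' (DirectSum.of (fun i => ZMod (p i ^ e i)) i y) = 0 := by
      rw [← map_nsmul, ← map_nsmul]
      have : (p i ^ e i) • y = 0 := by
        rw [nsmul_eq_mul, ZMod.natCast_self, zero_mul]
      rw [this, map_zero, map_zero]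
    rw [nsmul_eq_mul] at h3
    rcases mul_eq_zero.1 h3 with h4 | h4
    · exact absurd h4 (by exact_mod_cast (pow_pos (hp i).pos _).ne')
    · simpa using h4
  ext x
  have hx : x = (x.1, 0) + (0, x.2) := by simp
  rw [hx, map_add]
  have e1 : ψ (x.1, 0) = 0 := DFunLike.congr_fun h1 x.1
  have e2 : ψ (0, x.2) = 0 := DFunLike.congr_fun h2 x.2
  rw [e1, e2]
  simp

/-- **the rank of `G^ab/⟨S⟩`.** -/
theorem exists_rank (G : Type*) [Group G] [Group.FG G] (S : Set G) :
    ∃ (ρ : ℕ) (γ : Fin ρ → G),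
      (∀ φ : Additive G →+ ℂ, (∀ s ∈ S, φ (Additive.ofMul s) = 0) →
        (∀ i, φ (Additive.ofMul (γ i)) = 0) → φ = 0) ∧
      ∀ (n : ℕ) (c : Fin ρ → ZMod n), ∃ φ : Additive G →+ ZMod n,
        (∀ s ∈ S, φ (Additive.ofMul s) = 0) ∧ ∀ i, φ (Additive.ofMul (γ i)) = c i := by
  classical
  have : AddGroup.FG (QQ G S) := by
    have : AddGroup.FG (Additive G) := inferInstance
    exact AddGroup.fg_of_surjective (toQQ_surjective G S)
  obtain ⟨ρ, ι, _, p, hp, e, ⟨E⟩⟩ := AddCommGroup.equiv_free_prod_directSum_zmod (QQ G S)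
  have hγ : ∀ i : Fin ρ, ∃ g : G, E (toQQ G S (Additive.ofMul g)) = (Finsupp.single i 1, 0) := by
    intro i
    obtain ⟨g, hg⟩ := toQQ_surjective G S (E.symm (Finsupp.single i 1, 0))
    exact ⟨Additive.toMul g, by
      rw [ofMul_toMul, hg, AddEquiv.apply_symm_apply]⟩
  choose γ hγ using hγ
  refine ⟨ρ, γ, ?_, ?_⟩
  · intro φ hφ h0
    obtain ⟨ψ, hψ⟩ := exists_factor φ hφ
    have h1 : ψ.comp E.symm.toAddMonoidHom = 0 := by
      apply hom_eq_zero_of_basis p hp e
      intro i
      show ψ (E.symm _) = 0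
      rw [← hγ i, AddEquiv.symm_apply_apply, ← hψ, h0 i]
    refine DFunLike.ext _ _ fun g => ?_
    rw [hψ g]
    have := DFunLike.congr_fun h1 (E (toQQ G S g))
    simpa using this
  · intro n c
    let L : (Fin ρ →₀ ℤ) →+ ZMod n := (Finsupp.linearCombination ℤ c).toAddMonoidHom
    refine ⟨(L.comp (AddMonoidHom.fst _ _)).comp (E.toAddMonoidHom.comp (toQQ G S)), ?_, ?_⟩
    · intro s hs
      show L (E (toQQ G S (Additive.ofMul s))).1 = 0
      rw [toQQ_of_mem G S hs, map_zero]
      simp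
    · intro i
      show L (E (toQQ G S (Additive.ofMul (γ i)))).1 = c i
      rw [hγ i]
      show Finsupp.linearCombination ℤ c (Finsupp.single i 1) = c i
      rw [Finsupp.linearCombination_single, one_smul]

end Fermat.Agent.MR.KA
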